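import Mathlib
import Fermat.Prelude.Sol.S_IsAdicComplete_of_module_finite

/-!
# Complete Nakayama, integrality of commuting actions, Krull dimension of integral extensions
-/

set_option autoImplicit false

namespace Fermat.Agent.RT.Algebra

open Submodule

/-- Complete Nakayama. -/
theorem finite_of_quotient {R N : Type*} [CommRing R] [AddCommGroup N] [Module R N] (I : Ideal R)
    [IsPrecomplete I R] [IsHausdorff I N]
    [Module.Finite R (N ⧸ (I • ⊤ : Submodule R N))] : Module.Finite R N := by
  obtain ⟨k, g, hg⟩ := Module.Finite.exists_fin (R := R) (M := N ⧸ (I • ⊤ : Submodule R N))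
  choose g' hg' using fun i => Submodule.mkQ_surjective (I • ⊤ : Submodule R N) (g i)
  have := P2MW.S_IsAdicComplete_of_module_finite.M4cP1X1.isPrecomplete_pi I (Fin k)
  let F : (Fin k → R) →ₗ[R] N := Fintype.linearCombination R g'
  have hsurj : Function.Surjective (mkQ (I • ⊤ : Submodule R N) ∘ₗ F) := by
    rw [← LinearMap.range_eq_top, eq_top_iff, ← hg, Submodule.span_le]
    rintro _ ⟨i, rfl⟩
    exact ⟨Pi.single i 1, by simp [F, Fintype.linearCombination_apply_single, ← hg']⟩
  exact Module.Finite.of_surjective F (surjective_of_mkQ_comp_surjective hsurj)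

variable {S A : Type*} [CommRing S] [CommRing A] [Algebra S A] [Algebra.IsIntegral S A]

theorem ringKrullDim_le_of_isIntegral : ringKrullDim A ≤ ringKrullDim S := by
  refine Order.krullDim_le_of_strictMono
    (fun p => PrimeSpectrum.comap (algebraMap S A) p) fun p q hpq => ?_
  obtain ⟨x, hxq, hxp⟩ := SetLike.exists_of_lt (show p.asIdeal < q.asIdeal from hpq)
  exact Ideal.comap_lt_comap_of_integral_mem_sdiff (hI := p.2) hpq.le ⟨hxq, hxp⟩
    (Algebra.IsIntegral.isIntegral x)

theorem le_ringKrullDim_of_isIntegral (hinj : Function.Injective (algebraMap S A)) :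
    ringKrullDim S ≤ ringKrullDim A := by
  refine iSup_le fun l => ?_
  obtain ⟨Q, -, hQ, hQp⟩ := Ideal.exists_ideal_over_prime_of_isIntegral l.head.asIdeal
    (⊥ : Ideal A) (by
      rw [← RingHom.ker_eq_comap_bot, (RingHom.injective_iff_ker_eq_bot _).mp hinj]; exact bot_le)
  have : Q.LiesOver l.head.asIdeal := ⟨hQp.symm⟩
  obtain ⟨L, hL, -⟩ := Ideal.exists_ltSeries_of_hasGoingUp l Q
  exact le_iSup_of_le L (by rw [hL])

/-- The algebra generated by a commuting action on a module finite over `Λ` is integral over `Λ`. -/
theorem isIntegral_of_commute {Λ S C : Type*} [CommRing Λ] [CommRing S] [AddCommGroup C]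
    [Module Λ C] [Module S C] [SMulCommClass Λ S C] [Module.Finite Λ C]
    {B : Subalgebra S (Module.End S C)} (actB : Λ →+* B)
    (hact : ∀ a x, ((actB a : B) : Module.End S C) x = a • x)
    (hcomm : ∀ (a : Λ) (b : B), actB a * b = b * actB a) : actB.IsIntegral := fun b => by
  let ι : B →+* Module.End Λ C :=
    { toFun := fun b =>
        { toFun := (b : Module.End S C)
          map_add' := map_add _
          map_smul' := fun a x => by
            simpa [hact] using (LinearMap.congr_fun (congrArg Subtype.val (hcomm a b)) x).symm }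
      map_one' := rfl, map_mul' := fun _ _ => rfl, map_zero' := rfl, map_add' := fun _ _ => rfl }
  obtain ⟨P, hP, hP0⟩ := LinearMap.exists_monic_and_aeval_eq_zero Λ (ι b)
  have hinj : Function.Injective ι := fun x y h =>
    Subtype.ext (LinearMap.ext fun z => LinearMap.congr_fun h z)
  refine ⟨P, hP, hinj ?_⟩
  rwa [Polynomial.hom_eval₂, map_zero, show ι.comp actB = algebraMap Λ (Module.End Λ C) from
    RingHom.ext fun a => LinearMap.ext (hact a)]

end Fermat.Agent.RT.Algebra
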